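import Fermat.Agent.CharacterTheory.Degree
import Fermat.Agent.SchurWeylDuality.Commutant
import Mathlib.LinearAlgebra.Matrix.Charpoly.Eigs
import Mathlib.RingTheory.IntegralDomain

/-!
# Burnside–Brauer: faithful characters reach every irreducible one

A polynomial vanishing at the values of `χ` other than `χ 1` pairs with an irreducible `ψ` to a
multiple of `ψ 1`, since `χ x = χ 1` only at the identity.
-/

set_option autoImplicit false
set_option linter.style.haveILetI false

noncomputable section

open Finset Polynomial FA.CharacterTheory FA.FrobeniusGroups FA.SchurWeylDuality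

namespace FA.BurnsideBrauer

/-- A matrix of finite order with trace `d` is the identity. -/
theorem matrix_eq_one {ι : Type*} [Fintype ι] [DecidableEq ι] {A : Matrix ι ι ℂ} {m : ℕ}
    (hm : 0 < m) (hA : A ^ m = 1) (ht : A.trace = Fintype.card ι) : A = 1 := by
  rcases isEmpty_or_nonempty ι with hι | hι
  · exact Subsingleton.elim _ _
  have hsplit : A.charpoly.Splits := IsAlgClosed.splits _
  have hcard : A.charpoly.roots.card = Fintype.card ι := by
    rw [← hsplit.natDegree_eq_card_roots, Matrix.charpoly_natDegree_eq_dim]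
  have hroot : ∀ μ ∈ A.charpoly.roots, μ ^ m = 1 := fun μ hμ => by
    have h1 : μ ∈ spectrum ℂ A :=
      Matrix.mem_spectrum_iff_isRoot_charpoly.2 (Polynomial.mem_roots'.1 hμ).2
    have h2 := spectrum.pow_mem_pow A m h1
    rwa [hA, spectrum.one_eq, Set.mem_singleton_iff] at h2
  have hone : ∀ μ ∈ A.charpoly.roots, μ = 1 := by
    have hre : ∀ μ ∈ A.charpoly.roots, μ.re ≤ 1 ∧ (μ.re = 1 → μ = 1) := fun μ hμ => by
      have hn := Complex.norm_eq_one_of_pow_eq_one (hroot μ hμ) hm.ne'
      refine ⟨hn ▸ Complex.re_le_norm μ, fun h => Complex.ext h ?_⟩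
      have := Complex.normSq_apply μ
      rw [Complex.normSq_eq_norm_sq, hn, h] at this
      simp only [Complex.one_im]
      nlinarith
    have hs : (A.charpoly.roots.map fun μ => 1 - μ.re).sum = 0 := by
      rw [Multiset.sum_map_sub, Multiset.map_const', Multiset.sum_replicate, hcard, nsmul_one,
        sub_eq_zero]
      have h := congrArg Complex.re ((Matrix.trace_eq_sum_roots_charpoly A).symm.trans ht)
      rw [Complex.natCast_re] at h
      exact (h.symm.trans (map_multiset_sum Complex.reAddGroupHom _))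
    intro μ hμ
    refine (hre μ hμ).2 (le_antisymm (hre μ hμ).1 ?_)
    have hle : 1 - μ.re ≤ (A.charpoly.roots.map fun μ => 1 - μ.re).sum :=
      Multiset.single_le_sum (by
      intro x hx
      obtain ⟨ν, hν, rfl⟩ := Multiset.mem_map.1 hx
      linarith [(hre ν hν).1]) (1 - μ.re) (Multiset.mem_map_of_mem _ hμ)
    linarith
  have hrep : A.charpoly.roots = Multiset.replicate (Fintype.card ι) 1 :=
    Multiset.eq_replicate.2 ⟨hcard, hone⟩
  have hp : A.charpoly = (X - C 1) ^ Fintype.card ι := by
    rw [hsplit.eq_prod_roots_of_monic A.charpoly_monic, hrep, Multiset.map_replicate,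
      Multiset.prod_replicate]
  have hd : (aeval A) ((X - C (1 : ℂ)) ^ Fintype.card ι) = 0 := hp ▸ A.aeval_self_charpoly
  obtain ⟨Q, hQ⟩ := (Polynomial.dvd_iff_isRoot (a := (1 : ℂ)) (p := X ^ m - 1)).2 (by simp)
  have hQ1 : Q.eval 1 = m := by
    have h := congrArg (fun P : ℂ[X] => P.derivative.eval 1) hQ
    simpa [Polynomial.derivative_X_pow] using h.symm
  obtain ⟨a, b, hab⟩ : IsCoprime ((X - C (1 : ℂ)) ^ Fintype.card ι) Q :=
    (((Polynomial.irreducible_X_sub_C (1 : ℂ)).coprime_iff_not_dvd).2 fun h => by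
      rw [Polynomial.dvd_iff_isRoot, Polynomial.IsRoot.def, hQ1, Nat.cast_eq_zero] at h
      omega).pow_left
  have hQA : (aeval A) (X - C (1 : ℂ)) * (aeval A) Q = 0 := by
    rw [← map_mul, ← hQ]
    simp [hA]
  have : (aeval A) (X - C (1 : ℂ)) = 0 := by
    have h := congrArg (fun P => (aeval A) ((X - C (1 : ℂ)) * P)) hab
    simp only [mul_one] at h
    rw [← h, mul_add, map_add, ← mul_assoc, mul_left_comm (X - C (1 : ℂ)) b Q, map_mul, hd,
      map_mul _ b, map_mul _ (X - C (1 : ℂ)) Q, hQA]
    simp
  simpa [sub_eq_zero] using this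

variable {G : Type*} [Group G] [Fintype G] {V : Type*} [AddCommGroup V] [Module ℂ V]
  [FiniteDimensional ℂ V] (ρ : Representation ℂ G V)

/-- **The kernel of a character.** -/
theorem character_eq_iff (g : G) : ρ.character g = ρ.character 1 ↔ ρ g = 1 := by
  refine ⟨fun h => ?_, fun h => by simp [Representation.character, h]⟩
  set b := Module.finBasis ℂ V
  have h1 : LinearMap.toMatrixAlgEquiv b (ρ g) = 1 := by
    refine matrix_eq_one (m := orderOf g) (orderOf_pos g) ?_ ?_
    · rw [← map_pow, ← map_pow, pow_orderOf_eq_one, map_one, map_one]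
    · rw [Representation.char_one, Representation.character,
        LinearMap.trace_eq_matrix_trace ℂ b] at h
      rwa [Fintype.card_fin]
  exact (LinearMap.toMatrixAlgEquiv b).injective (h1.trans (map_one _).symm)

omit [Fintype G] [FiniteDimensional ℂ V] in
/-- **The powers of a character** are the traces of the tensor powers. -/
theorem character_pow (b : Module.Basis (Fin (Module.finrank ℂ V)) ℂ V) (g : G) (j : ℕ) :
    ρ.character g ^ j =
      (tpow (LinearMap.toMatrixAlgEquiv b (ρ g)) :
        Matrix (Fin j → _) (Fin j → _) ℂ).trace := by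
  rw [Representation.character, LinearMap.trace_eq_matrix_trace ℂ b, Matrix.trace]
  simp only [Matrix.trace, Matrix.diag, tpow, Matrix.of_apply]
  exact (Fintype.sum_pow _ j)

/-- **The theorem of Burnside and Brauer.** -/
theorem exists_pairing_ne_zero (hρ : Function.Injective ρ) {ψ : G → ℂ} (hψ : ψ ∈ irr G) :
    ∃ j < (Set.range ρ.character).ncard, pairing (fun x => ρ.character x ^ j) ψ ≠ 0 := by
  classical
  by_contra! hall
  set χ := ρ.character
  set S := (Finset.univ.image χ).erase (χ 1)
  set P : ℂ[X] := ∏ c ∈ S, (X - C c)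
  have hdeg : P.natDegree < (Set.range χ).ncard := by
    have hmem : χ 1 ∈ Finset.univ.image χ := Finset.mem_image_of_mem χ (Finset.mem_univ 1)
    rw [Polynomial.natDegree_prod _ _ fun c _ => X_sub_C_ne_zero c]
    simp only [natDegree_X_sub_C, Finset.sum_const, smul_eq_mul, mul_one]
    rw [← Set.image_univ, ← Finset.coe_univ, ← Finset.coe_image, Set.ncard_coe_finset]
    exact Finset.card_erase_lt_of_mem hmem
  have h0 : pairing (fun x => P.eval (χ x)) ψ = 0 := by
    simp only [pairing, Polynomial.eval_eq_sum_range, Finset.sum_mul, Finset.mul_sum]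
    rw [Finset.sum_comm]
    refine Finset.sum_eq_zero fun j hj => ?_
    have h := hall j (lt_of_le_of_lt (Nat.le_of_lt_succ (Finset.mem_range.1 hj)) hdeg)
    simp only [pairing] at h
    simp only [mul_assoc (P.coeff j), mul_left_comm _ (P.coeff j), ← Finset.mul_sum]
    rw [h, mul_zero]
  rw [pairing, Finset.sum_eq_single (1 : G) (fun x _ hx => ?_) (by simp)] at h0
  · obtain ⟨d, hd, hd1⟩ := irr_one hψ
    have hP : P.eval (χ 1) ≠ 0 := by
      rw [Polynomial.eval_prod, Finset.prod_ne_zero_iff]
      intro c hc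
      rw [eval_sub, eval_X, eval_C, sub_ne_zero]
      exact fun h => (Finset.mem_erase.1 hc).1 h.symm
    rw [inv_one, hd1] at h0
    simp [hP, hd] at h0
  · refine mul_eq_zero_of_left ?_ _
    rw [Polynomial.eval_prod]
    refine Finset.prod_eq_zero (Finset.mem_erase.2 ⟨fun h => hx (hρ ?_),
      Finset.mem_image_of_mem χ (Finset.mem_univ x)⟩) (by simp)
    rw [(character_eq_iff ρ x).1 h, map_one]

omit [FiniteDimensional ℂ V] in
/-- **The converse.** -/
theorem injective_of_pairing
    (h : ∀ ψ ∈ irr G, ∃ j : ℕ, pairing (fun x => ρ.character x ^ j) ψ ≠ 0) :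
    Function.Injective ρ := by
  classical
  intro g g' hgg'
  by_contra hne
  set n := g⁻¹ * g'
  have hn : n ∈ ρ.ker := by
    rw [MonoidHom.mem_ker, map_mul, ← hgg', ← map_mul, inv_mul_cancel, map_one]
  have hn1 : n ≠ 1 := fun e => hne (inv_mul_eq_one.1 e)
  obtain ⟨ψ, hψ, hψn⟩ : ∃ ψ ∈ irr G, ψ n ≠ ψ 1 := by
    by_contra! hall
    set f : G → ℂ := fun x => if x = 1 then 1 else 0
    have hf : ∀ g x, f (g * x * g⁻¹) = f x := fun g x => by simp [f]
    have := (expansion hf n).trans ((Finset.sum_congr rfl fun χ hχ => by rw [hall χ hχ]).trans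
      (expansion hf 1).symm)
    simp [f, hn1] at this
  obtain ⟨j, hj⟩ := h ψ hψ
  obtain ⟨W, hW, rfl⟩ := exists_of_mem_irr hψ
  haveI := hW
  set σ := W.toRepresentation
  set N := ρ.ker
  obtain ⟨w, hw⟩ := exists_scalar_average σ (f := fun x => if x ∈ N then (1 : ℂ) else 0)
    fun g x => if_congr ⟨fun h => by
      simpa [N, mul_assoc] using (MonoidHom.normal_ker ρ).conj_mem' _ h g,
      fun h => (MonoidHom.normal_ker ρ).conj_mem _ h g⟩ rfl rfl
  set T := ∑ x, (if x ∈ N then (1 : ℂ) else 0) • σ x⁻¹
  by_cases hw0 : w = 0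
  · refine hj (mul_eq_zero_of_right _ ?_)
    have hc : ∀ k ∈ N, ∀ x, ρ.character (k⁻¹ * x) = ρ.character x := fun k hk x => by
      simp only [Representation.character, map_mul, MonoidHom.mem_ker.1 (inv_mem hk), one_mul]
    have hswap : ∀ k ∈ N, ∑ x, ρ.character x ^ j * σ.character (x⁻¹ * k⁻¹) =
        ∑ x, ρ.character x ^ j * σ.character x⁻¹ := fun k hk =>
      Fintype.sum_equiv (Equiv.mulLeft k) _ _ fun x => by
        rw [Equiv.coe_mulLeft, mul_inv_rev, ← hc k hk (k * x), inv_mul_cancel_left]
    have hsum : ((Finset.univ.filter (· ∈ N)).card : ℂ) *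
        ∑ x, ρ.character x ^ j * σ.character x⁻¹ = 0 := by
      rw [← nsmul_eq_mul, ← Finset.sum_const]
      rw [← Finset.sum_congr rfl fun k hk => hswap k (Finset.mem_filter.1 hk).2, Finset.sum_comm]
      refine Finset.sum_eq_zero fun x _ => ?_
      rw [← Finset.mul_sum]
      refine mul_eq_zero_of_right _ ?_
      have : ∑ k ∈ Finset.univ.filter (· ∈ N), σ.character (x⁻¹ * k⁻¹) =
          LinearMap.trace ℂ W.toSubmodule (σ x⁻¹ * T) := by
        simp only [T, Finset.mul_sum, map_sum, Representation.character, Finset.sum_filter]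
        refine Finset.sum_congr rfl fun k _ => ?_
        split_ifs with hk
        · rw [one_smul, map_mul]
        · rw [zero_smul, mul_zero, map_zero]
      rw [this, hw, hw0, map_zero, mul_zero, map_zero]
    refine (mul_eq_zero.1 hsum).resolve_left (Nat.cast_ne_zero.2 (Finset.card_ne_zero.2
      ⟨1, Finset.mem_filter.2 ⟨Finset.mem_univ _, one_mem N⟩⟩))
  · refine hψn ?_
    have hTn : σ n * T = T := by
      simp only [T, Finset.mul_sum, mul_smul_comm, ← map_mul]
      refine Fintype.sum_equiv (Equiv.mulRight n⁻¹) _ _ fun x => ?_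
      simp only [Equiv.coe_mulRight, mul_inv_rev, inv_inv]
      congr 1
      exact if_congr (mul_mem_cancel_right (inv_mem hn)).symm rfl rfl
    rw [hw, Algebra.algebraMap_eq_smul_one, mul_smul_comm, mul_one] at hTn
    simp [Representation.character, (smul_right_injective _ hw0) hTn]

/-- **A faithful irreducible representation makes the centre cyclic.** -/
theorem isCyclic_center [Representation.IsIrreducible ρ] (hρ : Function.Injective ρ) :
    IsCyclic (Subgroup.center G) := by
  have hex : ∀ z : Subgroup.center G, ∃ c : ℂ, ρ z = algebraMap ℂ (Module.End ℂ V) c := fun z => by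
    obtain ⟨c, hc⟩ :=
      (Representation.IsIrreducible.algebraMap_intertwiningMap_bijective_of_isAlgClosed
        (ρ := ρ)).2 ⟨ρ z, fun g => by
          show ρ z * ρ g = ρ g * ρ z
          rw [← map_mul, ← map_mul, Subgroup.mem_center_iff.1 z.2 g]⟩
    exact ⟨c, (congrArg Representation.IntertwiningMap.toLinearMap hc).symm⟩
  choose c hc using hex
  haveI : Nontrivial V :=
    Module.nontrivial_of_finrank_pos (Nat.pos_of_ne_zero (finrank_ne_zero ρ))
  have hinj : Function.Injective (algebraMap ℂ (Module.End ℂ V)) := RingHom.injective _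
  let f : Subgroup.center G →* ℂ :=
    { toFun := c
      map_one' := hinj (by rw [← hc, Subgroup.coe_one, map_one, map_one])
      map_mul' := fun x y => hinj (by rw [← hc, Subgroup.coe_mul, map_mul, map_mul, hc, hc]) }
  exact isCyclic_of_injective_ringHom f fun x y hxy =>
    Subtype.ext (hρ (by rw [hc, hc]; exact congrArg _ hxy))

end FA.BurnsideBrauer

end
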